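/-
S18lib / Setup / Datum  (helper2, interface co-architect)

The ABSTRACT reduction datum.  Everything in (RR), (C), the parity lemma and the abstract
tame-branch lemma is pure algebra over this structure; only (V), (G*) and (Asm) touch modular curves.

`L` = field of constants in characteristic 0 side (in the application `AlgebraicClosure ℚ`),
`A` = a valuation subring of `L`, `k = IsLocalRing.ResidueField A`,
`F / L` and `Fk / k` = the two function fields (places / divisors are the Prelude ones),
`O` = the valuation ring of the "Gauss valuation" of `F` (NOT `F ∩ A((q))`, see msg 610 T1),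
`red : O →+* Fk` the reduction, `r` the place-reduction map.
-/
import Mathlib
import Fermat.Prelude.Def_AlgebraicCurve_DivisorClassGroup
import Fermat.Prelude.Def_AlgebraicCurve_Repartitions

set_option autoImplicit false

noncomputable section

namespace Fermat.Agent.S18lib

open AlgebraicCurve

/-- Abstract reduction datum for a pair of function fields `F / L`, `Fk / k`,
`k` the residue field of the valuation subring `A` of `L`. -/
structure RedDatum {L : Type*} [Field L] (A : ValuationSubring L)
    (F : Type*) [Field F] [Algebra L F]
    (Fk : Type*) [Field Fk] [Algebra (IsLocalRing.ResidueField A) Fk] where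
  /-- the valuation ring of the Gauss valuation on `F` -/
  O : ValuationSubring F
  /-- `O ∩ L = A` -/
  algebraMap_mem_iff : ∀ c : L, algebraMap L F c ∈ O ↔ c ∈ A
  /-- the reduction map -/
  red : O →+* Fk
  red_surjective : Function.Surjective red
  /-- reduction is compatible with the residue map on constants -/
  red_algebraMap : ∀ (a : A) (h : algebraMap L F (a : L) ∈ O),
    red ⟨algebraMap L F (a : L), h⟩ = algebraMap (IsLocalRing.ResidueField A) Fk (IsLocalRing.residue A a)
  /-- value group of `O` = value group of `A`: every nonzero `f` is a constant times a unit of `O` -/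
  exists_const_mul_isUnit : ∀ f : F, f ≠ 0 →
    ∃ c : L, c ≠ 0 ∧ ∃ u : Oˣ, algebraMap L F c * f = ((u : O) : F)
  /-- the place reduction map -/
  r : Place L F → Place (IsLocalRing.ResidueField A) Fk
  deg_r : ∀ P, (r P).deg = P.deg
  /-- `r_* div(y) = div(red y)` for `y ∈ O` with nonzero reduction -/
  mapDomain_div : ∀ (y : O), red y ≠ 0 → ∀ D : Divisor L F, (∀ P, D P = P.ord (y : F)) →
    ∀ Q, Finsupp.mapDomain r D Q = Q.ord (red y)

namespace RedDatum

variable {L : Type*} [Field L] {A : ValuationSubring L}
variable {F : Type*} [Field F] [Algebra L F]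
variable {Fk : Type*} [Field Fk] [Algebra (IsLocalRing.ResidueField A) Fk]

/-- total version of the reduction map: `0` outside `O` -/
def redF (D : RedDatum A F Fk) (y : F) : Fk :=
  letI := Classical.propDecidable
  if h : y ∈ D.O then D.red ⟨y, h⟩ else 0

theorem redF_of_mem (D : RedDatum A F Fk) {y : F} (h : y ∈ D.O) : D.redF y = D.red ⟨y, h⟩ := by
  classical
  rw [redF, dif_pos h]

theorem redF_of_not_mem (D : RedDatum A F Fk) {y : F} (h : y ∉ D.O) : D.redF y = 0 := by
  classical
  rw [redF, dif_neg h]

/-- A family in `F` is *orthonormal* if it lies in `O` and its reductions are `k`-linearly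
independent.  (Then it is `L`-linearly independent and spans a free `A`-lattice.) -/
def IsOrthonormal (D : RedDatum A F Fk) {ι : Type*} (b : ι → F) : Prop :=
  (∀ i, b i ∈ D.O) ∧ LinearIndependent (IsLocalRing.ResidueField A) (fun i => D.redF (b i))

/-- The extra, non-formal property (msg 610 T2): every finite dimensional `L`-subspace of `F`
has an orthonormal basis.  Proved in (V)/(Frame) from `[Fk : k(ȳ)] = [F : L(y)]`. -/
def HasOrthonormalBases (D : RedDatum A F Fk) : Prop :=
  ∀ (W : Submodule L F), FiniteDimensional L W →
    ∃ b : Fin (Module.finrank L W) → F, (∀ i, b i ∈ W) ∧ D.IsOrthonormal b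

end RedDatum

end Fermat.Agent.S18lib
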