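/-
S18lib / Setup / DatumLemmas  (helper2)

Derived lemmas for `RedDatum`: kernel of `red`, units, the total reduction `redF`,
constants, orthonormal families.
-/
import Fermat.Agent.S18lib.Setup.Datum

set_option autoImplicit false

noncomputable section

namespace Fermat.Agent.S18lib

open AlgebraicCurve

namespace RedDatum

variable {L : Type*} [Field L] {A : ValuationSubring L}
variable {F : Type*} [Field F] [Algebra L F]
variable {Fk : Type*} [Field Fk] [Algebra (IsLocalRing.ResidueField A) Fk]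
variable (D : RedDatum A F Fk)

local notation "k" => IsLocalRing.ResidueField A

/-! ### kernel of `red`, units -/

theorem red_eq_zero_iff (y : D.O) : D.red y = 0 ↔ y ∈ IsLocalRing.maximalIdeal D.O := by
  have hmax : (RingHom.ker D.red).IsMaximal := RingHom.ker_isMaximal_of_surjective _ D.red_surjective
  have : RingHom.ker D.red = IsLocalRing.maximalIdeal D.O := IsLocalRing.eq_maximalIdeal hmax
  rw [← this, RingHom.mem_ker]

theorem red_ne_zero_iff_isUnit (y : D.O) : D.red y ≠ 0 ↔ IsUnit y := by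
  rw [Ne, D.red_eq_zero_iff, IsLocalRing.mem_maximalIdeal, mem_nonunits_iff, not_not]

theorem red_unit_ne_zero (u : D.Oˣ) : D.red (u : D.O) ≠ 0 :=
  (D.red_ne_zero_iff_isUnit _).2 u.isUnit

/-! ### the total reduction `redF` -/

@[simp] theorem redF_zero : D.redF 0 = 0 := by
  rw [D.redF_of_mem D.O.zero_mem]; exact map_zero _

@[simp] theorem redF_one : D.redF 1 = 1 := by
  rw [D.redF_of_mem D.O.one_mem]; exact map_one _

theorem redF_add {x y : F} (hx : x ∈ D.O) (hy : y ∈ D.O) :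
    D.redF (x + y) = D.redF x + D.redF y := by
  rw [D.redF_of_mem hx, D.redF_of_mem hy, D.redF_of_mem (D.O.add_mem _ _ hx hy), ← map_add]
  rfl

theorem redF_mul {x y : F} (hx : x ∈ D.O) (hy : y ∈ D.O) :
    D.redF (x * y) = D.redF x * D.redF y := by
  rw [D.redF_of_mem hx, D.redF_of_mem hy, D.redF_of_mem (D.O.mul_mem _ _ hx hy), ← map_mul]
  rfl

theorem redF_neg {x : F} (hx : x ∈ D.O) : D.redF (-x) = -D.redF x := by
  rw [D.redF_of_mem hx, D.redF_of_mem (D.O.neg_mem _ hx), ← map_neg]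
  rfl

theorem redF_sub {x y : F} (hx : x ∈ D.O) (hy : y ∈ D.O) :
    D.redF (x - y) = D.redF x - D.redF y := by
  rw [sub_eq_add_neg, D.redF_add hx (D.O.neg_mem _ hy), D.redF_neg hy, sub_eq_add_neg]

theorem redF_pow {x : F} (hx : x ∈ D.O) (n : ℕ) : D.redF (x ^ n) = D.redF x ^ n := by
  rw [D.redF_of_mem hx, D.redF_of_mem (D.O.pow_mem hx n), ← map_pow]
  rfl

theorem redF_sum {ι : Type*} (s : Finset ι) (f : ι → F) (hf : ∀ i ∈ s, f i ∈ D.O) :
    D.redF (∑ i ∈ s, f i) = ∑ i ∈ s, D.redF (f i) := by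
  classical
  induction s using Finset.induction_on with
  | empty => simp
  | insert a s ha ih =>
    rw [Finset.sum_insert ha, Finset.sum_insert ha,
      D.redF_add (hf a (Finset.mem_insert_self a s))
        (D.O.sum_mem fun i hi => hf i (Finset.mem_insert_of_mem hi)),
      ih fun i hi => hf i (Finset.mem_insert_of_mem hi)]

theorem redF_eq_zero_iff {x : F} (hx : x ∈ D.O) :
    D.redF x = 0 ↔ (⟨x, hx⟩ : D.O) ∈ IsLocalRing.maximalIdeal D.O := by
  rw [D.redF_of_mem hx, D.red_eq_zero_iff]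

/-- a nonzero reduction means: a unit of `O` -/
theorem redF_ne_zero_iff {x : F} : D.redF x ≠ 0 ↔ ∃ u : D.Oˣ, ((u : D.O) : F) = x := by
  constructor
  · intro h
    by_cases hx : x ∈ D.O
    · rw [D.redF_of_mem hx] at h
      obtain ⟨u, hu⟩ := (D.red_ne_zero_iff_isUnit _).1 h
      exact ⟨u, by rw [hu]⟩
    · exact absurd (D.redF_of_not_mem hx) h
  · rintro ⟨u, rfl⟩
    rw [D.redF_of_mem (u : D.O).2]
    exact D.red_unit_ne_zero u

theorem inv_mem_of_redF_ne_zero {x : F} (h : D.redF x ≠ 0) : x⁻¹ ∈ D.O := by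
  obtain ⟨u, rfl⟩ := D.redF_ne_zero_iff.1 h
  have : (((u⁻¹ : D.Oˣ) : D.O) : F) = ((u : D.O) : F)⁻¹ := by
    have h1 : ((u : D.O) : F) * (((u⁻¹ : D.Oˣ) : D.O) : F) = 1 := by
      rw [← D.O.coe_mul, Units.mul_inv]; rfl
    exact eq_inv_of_mul_eq_one_right h1
  rw [← this]
  exact ((u⁻¹ : D.Oˣ) : D.O).2

theorem mem_of_redF_ne_zero {x : F} (h : D.redF x ≠ 0) : x ∈ D.O := by
  by_contra hx
  exact h (D.redF_of_not_mem hx)

theorem redF_inv {x : F} (h : D.redF x ≠ 0) : D.redF x⁻¹ = (D.redF x)⁻¹ := by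
  have hx := D.mem_of_redF_ne_zero h
  have hxi := D.inv_mem_of_redF_ne_zero h
  have hx0 : x ≠ 0 := by
    rintro rfl
    exact h D.redF_zero
  have := D.redF_mul hx hxi
  rw [mul_inv_cancel₀ hx0, D.redF_one] at this
  exact eq_inv_of_mul_eq_one_right this.symm

/-! ### constants -/

theorem algebraMap_mem (a : A) : algebraMap L F (a : L) ∈ D.O :=
  (D.algebraMap_mem_iff _).2 a.2

theorem redF_algebraMap (a : A) :
    D.redF (algebraMap L F (a : L)) = algebraMap k Fk (IsLocalRing.residue A a) := by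
  rw [D.redF_of_mem (D.algebraMap_mem a)]
  exact D.red_algebraMap a _

theorem redF_algebraMap_eq_zero_iff (a : A) :
    D.redF (algebraMap L F (a : L)) = 0 ↔ a ∈ IsLocalRing.maximalIdeal A := by
  rw [D.redF_algebraMap, map_eq_zero_iff _ (algebraMap k Fk).injective,
    IsLocalRing.residue_eq_zero_iff]

theorem smul_mem {x : F} (a : A) (hx : x ∈ D.O) : algebraMap L F (a : L) * x ∈ D.O :=
  D.O.mul_mem _ _ (D.algebraMap_mem a) hx

theorem redF_smul {x : F} (a : A) (hx : x ∈ D.O) :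
    D.redF (algebraMap L F (a : L) * x) = IsLocalRing.residue A a • D.redF x := by
  rw [D.redF_mul (D.algebraMap_mem a) hx, D.redF_algebraMap, Algebra.smul_def]

/-- every nonzero `f` is `c⁻¹ • (unit of O)`; version with `redF` -/
theorem exists_const_mul_redF_ne_zero {f : F} (hf : f ≠ 0) :
    ∃ c : L, c ≠ 0 ∧ D.redF (algebraMap L F c * f) ≠ 0 := by
  obtain ⟨c, hc, u, hu⟩ := D.exists_const_mul_isUnit f hf
  exact ⟨c, hc, D.redF_ne_zero_iff.2 ⟨u, hu.symm⟩⟩

/-- elements of `O` with zero reduction are `(element of 𝔪_A) * (element of O with nonzero reduction)` -/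
theorem exists_eq_mul_of_redF_eq_zero {x : F} (hx : x ∈ D.O) (hx0 : x ≠ 0) (h : D.redF x = 0) :
    ∃ (a : A) (y : F), a ∈ IsLocalRing.maximalIdeal A ∧ D.redF y ≠ 0 ∧
      x = algebraMap L F (a : L) * y := by
  obtain ⟨c, hc, u, hu⟩ := D.exists_const_mul_isUnit x hx0
  -- x = c⁻¹ * u ; c⁻¹ must be in 𝔪_A
  have hcF : algebraMap L F c ≠ 0 := (map_ne_zero _).2 hc
  have hx' : x = algebraMap L F c⁻¹ * ((u : D.O) : F) := by
    rw [← hu, map_inv₀, ← mul_assoc, inv_mul_cancel₀ hcF, one_mul]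
  -- c⁻¹ ∈ A, else c ∈ 𝔪_A-ish and u = c x would have zero reduction
  have hcinv : c⁻¹ ∈ A := by
    by_contra hnot
    have hcA : c ∈ A := by
      rcases A.mem_or_inv_mem c with h1 | h1
      · exact h1
      · exact absurd h1 hnot
    have := D.redF_smul ⟨c, hcA⟩ hx
    rw [h, smul_zero] at this
    have h2 : D.redF (algebraMap L F c * x) ≠ 0 := by
      rw [hu]; exact D.redF_ne_zero_iff.2 ⟨u, rfl⟩
    exact h2 this
  refine ⟨⟨c⁻¹, hcinv⟩, ((u : D.O) : F), ?_, D.redF_ne_zero_iff.2 ⟨u, rfl⟩, hx'⟩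
  -- c⁻¹ ∈ 𝔪_A since red x = 0
  rw [← D.redF_algebraMap_eq_zero_iff]
  by_contra hne
  have h3 := D.redF_mul (D.algebraMap_mem ⟨c⁻¹, hcinv⟩) (u : D.O).2
  rw [← hx', h] at h3
  rcases mul_eq_zero.1 h3.symm with h4 | h4
  · exact hne h4
  · exact (D.redF_ne_zero_iff.2 ⟨u, rfl⟩) h4

end RedDatum

end Fermat.Agent.S18lib
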