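/-
S18lib / Setup / Orthonormal  (helper2)

Orthonormal families of a `RedDatum`: an `L`-combination lies in `O` iff all coefficients lie in `A`;
reductions of `A`-combinations; `L`-linear independence.
-/
import Fermat.Agent.S18lib.Setup.DatumLemmas

set_option autoImplicit false

noncomputable section

namespace Fermat.Agent.S18lib

open AlgebraicCurve

/-- in a valuation ring, a finite nonzero family has an element dividing... i.e. of maximal
absolute value -/
theorem exists_max_coeff {L : Type*} [Field L] (A : ValuationSubring L) {ι : Type*} [Fintype ι]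
    (c : ι → L) (hc : c ≠ 0) : ∃ i₀, c i₀ ≠ 0 ∧ ∀ i, c i / c i₀ ∈ A := by
  classical
  obtain ⟨j, hj⟩ : ∃ j, c j ≠ 0 := by
    by_contra h
    push Not at h
    exact hc (funext h)
  have : Nonempty ι := ⟨j⟩
  obtain ⟨i₀, -, hi₀⟩ := Finset.exists_max_image Finset.univ (fun i => A.valuation (c i))
    Finset.univ_nonempty
  have h0 : c i₀ ≠ 0 := by
    intro h
    have h1 := hi₀ j (Finset.mem_univ j)
    rw [h, map_zero] at h1
    exact hj ((A.valuation.zero_iff).1 (le_antisymm h1 zero_le))
  refine ⟨i₀, h0, fun i => ?_⟩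
  rw [← A.valuation_le_one_iff, map_div₀]
  exact div_le_one_of_le₀ (hi₀ i (Finset.mem_univ i)) zero_le

namespace RedDatum

variable {L : Type*} [Field L] {A : ValuationSubring L}
variable {F : Type*} [Field F] [Algebra L F]
variable {Fk : Type*} [Field Fk] [Algebra (IsLocalRing.ResidueField A) Fk]
variable (D : RedDatum A F Fk)

local notation "k" => IsLocalRing.ResidueField A

variable {D}
variable {ι : Type*} [Fintype ι] {b : ι → F}

/-- an `A`-combination of an orthonormal family lies in `O` -/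
theorem IsOrthonormal.sum_mem (hb : D.IsOrthonormal b) (a : ι → A) :
    ∑ i, algebraMap L F (a i : L) * b i ∈ D.O :=
  D.O.sum_mem fun i _ => D.smul_mem (a i) (hb.1 i)

/-- reduction of an `A`-combination -/
theorem IsOrthonormal.redF_sum (hb : D.IsOrthonormal b) (a : ι → A) :
    D.redF (∑ i, algebraMap L F (a i : L) * b i)
      = ∑ i, IsLocalRing.residue A (a i) • D.redF (b i) := by
  rw [D.redF_sum _ _ fun i _ => D.smul_mem (a i) (hb.1 i)]
  exact Finset.sum_congr rfl fun i _ => D.redF_smul (a i) (hb.1 i)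

/-- an `A`-combination with a unit coefficient has nonzero reduction -/
theorem IsOrthonormal.redF_sum_ne_zero (hb : D.IsOrthonormal b) (a : ι → A) {i₀ : ι}
    (h : a i₀ ∉ IsLocalRing.maximalIdeal A) :
    D.redF (∑ i, algebraMap L F (a i : L) * b i) ≠ 0 := by
  rw [hb.redF_sum]
  intro h0
  have := Fintype.linearIndependent_iff.1 hb.2 (fun i => IsLocalRing.residue A (a i)) h0 i₀
  exact h ((IsLocalRing.residue_eq_zero_iff _).1 this)

/-- normal form of an `L`-combination: `c i₀ • (unit of O)` -/
theorem IsOrthonormal.exists_eq_mul (hb : D.IsOrthonormal b) (c : ι → L) (hc : c ≠ 0) :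
    ∃ i₀, c i₀ ≠ 0 ∧ (∀ i, c i / c i₀ ∈ A) ∧
      ∃ y : F, D.redF y ≠ 0 ∧ ∑ i, algebraMap L F (c i) * b i = algebraMap L F (c i₀) * y := by
  obtain ⟨i₀, h0, hi⟩ := exists_max_coeff A c hc
  refine ⟨i₀, h0, hi, ∑ i, algebraMap L F ((⟨c i / c i₀, hi i⟩ : A) : L) * b i, ?_, ?_⟩
  · apply hb.redF_sum_ne_zero (fun i => (⟨c i / c i₀, hi i⟩ : A)) (i₀ := i₀)
    rw [IsLocalRing.mem_maximalIdeal, mem_nonunits_iff, not_not]
    have : (⟨c i₀ / c i₀, hi i₀⟩ : A) = 1 := by
      ext; simp [div_self h0]
    rw [this]; exact isUnit_one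
  · rw [Finset.mul_sum]
    refine Finset.sum_congr rfl fun i _ => ?_
    rw [← mul_assoc, ← map_mul, mul_div_cancel₀ _ h0]

/-- an orthonormal family is `L`-linearly independent -/
theorem IsOrthonormal.linearIndependent (hb : D.IsOrthonormal b) : LinearIndependent L b := by
  rw [Fintype.linearIndependent_iff]
  intro c hc
  by_contra hne
  push Not at hne
  have hc0 : c ≠ 0 := by
    obtain ⟨i, hi⟩ := hne
    intro h
    exact hi (congrFun h i)
  obtain ⟨i₀, h0, -, y, hy, hsum⟩ := hb.exists_eq_mul c hc0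
  have hy0 : y ≠ 0 := by
    rintro rfl
    exact hy D.redF_zero
  have : ∑ i, algebraMap L F (c i) * b i = 0 := by
    simpa [Algebra.smul_def] using hc
  rw [hsum] at this
  rcases mul_eq_zero.1 this with h1 | h1
  · exact h0 ((map_eq_zero _).1 h1)
  · exact hy0 h1

/-- an `L`-combination of an orthonormal family lies in `O` iff all coefficients lie in `A` -/
theorem IsOrthonormal.sum_mem_iff (hb : D.IsOrthonormal b) (c : ι → L) :
    ∑ i, algebraMap L F (c i) * b i ∈ D.O ↔ ∀ i, c i ∈ A := by
  constructor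
  · intro h
    by_cases hc : c = 0
    · intro i; rw [hc]; exact A.zero_mem
    obtain ⟨i₀, h0, hi, y, hy, hsum⟩ := hb.exists_eq_mul c hc
    rw [hsum] at h
    -- c i₀ = (c i₀ * y) * y⁻¹ ∈ O ∩ L = A
    have hyi := D.inv_mem_of_redF_ne_zero hy
    have hy0 : y ≠ 0 := by
      rintro rfl
      exact hy D.redF_zero
    have h1 : algebraMap L F (c i₀) ∈ D.O := by
      have := D.O.mul_mem _ _ h hyi
      rwa [mul_assoc, mul_inv_cancel₀ hy0, mul_one] at this
    have h2 : c i₀ ∈ A := (D.algebraMap_mem_iff _).1 h1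
    intro i
    have := A.mul_mem _ _ (hi i) h2
    rwa [div_mul_cancel₀ _ h0] at this
  · intro h
    exact hb.sum_mem fun i => ⟨c i, h i⟩

/-- an element of `O` in the span of an orthonormal family is an `A`-combination -/
theorem IsOrthonormal.exists_coeff_of_mem_span (hb : D.IsOrthonormal b) {y : F}
    (hy : y ∈ Submodule.span L (Set.range b)) (hyO : y ∈ D.O) :
    ∃ a : ι → A, y = ∑ i, algebraMap L F (a i : L) * b i := by
  obtain ⟨c, rfl⟩ := (Submodule.mem_span_range_iff_exists_fun L).1 hy
  have h' : ∑ i, algebraMap L F (c i) * b i ∈ D.O := by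
    simpa [Algebra.smul_def] using hyO
  have hc := (hb.sum_mem_iff c).1 h'
  exact ⟨fun i => ⟨c i, hc i⟩, by simp [Algebra.smul_def]⟩

end RedDatum

end Fermat.Agent.S18lib
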