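/-
S18lib / Setup / CurveRR  (helper2, interface co-architect)

The abstract "Riemann theorem" interface for a function field `F / K` in the Prelude language
(`AlgebraicCurve.Place`, `Divisor`, `riemannRochSpace`).  `g` is the genus (Riemann's constant).
Producers: (RRgen) for `F` finite separable over `K(x)`, `K` algebraically closed, any characteristic.
Consumers: (RRlat), (C).
-/
import Mathlib
import Fermat.Prelude.Def_AlgebraicCurve_DivisorClassGroup
import Fermat.Prelude.Def_AlgebraicCurve_Repartitions

set_option autoImplicit false

noncomputable section

namespace Fermat.Agent.S18lib

open AlgebraicCurve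

/-- `F / K` is the function field of a curve of genus `g` over the algebraically closed field `K`,
in the weak (Riemann) form that (RRlat) and (C) need. -/
structure IsCurveOfGenus (K F : Type*) [Field K] [Field F] [Algebra K F] (g : ℕ) : Prop where
  /-- principal divisors exist (finite support) and have degree `0` -/
  hasPrincipalDivisors : HasPrincipalDivisors K F
  /-- all places are rational -/
  deg_eq_one : ∀ P : Place K F, P.deg = 1
  /-- there are infinitely many places -/
  infinite_places : Infinite (Place K F)
  /-- the only functions without poles are the constants -/
  riemannRochSpace_zero : riemannRochSpace (0 : Divisor K F) = (⊥ : Subalgebra K F).toSubmodule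
  /-- Riemann–Roch spaces are finite dimensional -/
  finiteDimensional : ∀ E : Divisor K F, FiniteDimensional K (riemannRochSpace E)
  /-- Riemann's inequality -/
  riemann_le : ∀ E : Divisor K F,
    Divisor.degree E + 1 - (g : ℤ) ≤ (Module.finrank K (riemannRochSpace E) : ℤ)
  /-- Riemann's theorem: equality in large degree -/
  riemann_eq : ∀ E : Divisor K F, 2 * (g : ℤ) - 2 < Divisor.degree E →
    (Module.finrank K (riemannRochSpace E) : ℤ) = Divisor.degree E + 1 - (g : ℤ)

end Fermat.Agent.S18lib
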