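/-
S18lib / Setup / DivLemmas  (helper2)

Generic facts about principal divisors and Riemann–Roch spaces in the Prelude language, under
`[HasPrincipalDivisors K F]`: the divisor `divOf f`, multiplicativity, membership in `L(E)`.
-/
import Mathlib
import Fermat.Prelude.Def_AlgebraicCurve_DivisorClassGroup
import Fermat.Prelude.Def_AlgebraicCurve_Repartitions

set_option autoImplicit false

noncomputable section

namespace Fermat.Agent.S18lib

open AlgebraicCurve

variable {K F : Type*} [Field K] [Field F] [Algebra K F]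

/-- the divisor of a function (`0` for `f = 0`) -/
def divOf [HasPrincipalDivisors K F] (f : F) : Divisor K F :=
  letI := Classical.propDecidable
  if hf : f = 0 then 0 else (HasPrincipalDivisors.exists_divisor (K := K) f hf).choose

variable [HasPrincipalDivisors K F]

theorem divOf_apply {f : F} (hf : f ≠ 0) (v : Place K F) : divOf (K := K) f v = v.ord f := by
  classical
  rw [divOf, dif_neg hf]
  exact (HasPrincipalDivisors.exists_divisor (K := K) f hf).choose_spec.1 v

@[simp] theorem divOf_zero : divOf (K := K) (0 : F) = 0 := by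
  classical
  rw [divOf, dif_pos rfl]

theorem divOf_apply' (f : F) (v : Place K F) : divOf (K := K) f v = v.ord f := by
  rcases eq_or_ne f 0 with rfl | hf
  · simp
  · exact divOf_apply hf v

theorem degree_divOf (f : F) : Divisor.degree (divOf (K := K) f) = 0 := by
  classical
  rcases eq_or_ne f 0 with rfl | hf
  · simp
  · rw [divOf, dif_neg hf]
    exact (HasPrincipalDivisors.exists_divisor (K := K) f hf).choose_spec.2

theorem divOf_one : divOf (K := K) (1 : F) = 0 := by
  ext v
  rw [divOf_apply' , Place.ord_one, Finsupp.zero_apply]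

theorem divOf_mul {f g : F} (hf : f ≠ 0) (hg : g ≠ 0) :
    divOf (K := K) (f * g) = divOf (K := K) f + divOf (K := K) g := by
  ext v
  rw [Finsupp.add_apply, divOf_apply', divOf_apply', divOf_apply', v.ord_mul hf hg]

theorem divOf_inv (f : F) : divOf (K := K) f⁻¹ = -divOf (K := K) f := by
  ext v
  rw [Finsupp.neg_apply, divOf_apply', divOf_apply', v.ord_inv]

theorem divOf_pow (f : F) (n : ℕ) : divOf (K := K) (f ^ n) = n • divOf (K := K) f := by
  ext v
  rw [Finsupp.smul_apply, divOf_apply', divOf_apply', ← zpow_natCast, v.ord_zpow]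
  simp

theorem divOf_mem_principal {f : F} (hf : f ≠ 0) :
    divOf (K := K) f ∈ Divisor.principal (K := K) (F := F) :=
  ⟨f, hf, fun v => divOf_apply hf v⟩

theorem mem_principal_iff {E : Divisor K F} :
    E ∈ Divisor.principal (K := K) (F := F) ↔ ∃ f : F, f ≠ 0 ∧ E = divOf (K := K) f := by
  constructor
  · rintro ⟨f, hf, h⟩
    exact ⟨f, hf, Finsupp.ext fun v => by rw [h v, divOf_apply hf]⟩
  · rintro ⟨f, hf, rfl⟩
    exact divOf_mem_principal hf

theorem degree_eq_zero_of_mem_principal {E : Divisor K F}
    (hE : E ∈ Divisor.principal (K := K) (F := F)) : Divisor.degree E = 0 := by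
  obtain ⟨f, -, rfl⟩ := mem_principal_iff.1 hE
  exact degree_divOf f

/-- `f ∈ L(E)` iff `f = 0` or `div f + E ≥ 0` -/
theorem mem_riemannRochSpace_iff_divOf {E : Divisor K F} {f : F} :
    f ∈ riemannRochSpace E ↔ f = 0 ∨ 0 ≤ divOf (K := K) f + E := by
  rw [mem_riemannRochSpace_iff]
  rcases eq_or_ne f 0 with rfl | hf
  · simp
  · simp only [hf, false_or]
    rw [Finsupp.le_def]
    refine forall_congr' fun v => ?_
    rw [Finsupp.zero_apply, Finsupp.add_apply, divOf_apply hf]
    constructor <;> intro h <;> linarith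

omit [HasPrincipalDivisors K F] in
theorem riemannRochSpace_mono {E E' : Divisor K F} (h : E ≤ E') :
    riemannRochSpace E ≤ riemannRochSpace E' := by
  intro f hf
  rw [mem_riemannRochSpace_iff] at hf ⊢
  intro v
  rcases hf v with h0 | h1
  · exact Or.inl h0
  · exact Or.inr (le_trans (neg_le_neg (Finsupp.le_def.1 h v)) h1)

omit [HasPrincipalDivisors K F] in
/-- multiplication `L(E) × L(E') → L(E + E')` -/
theorem mul_mem_riemannRochSpace {E E' : Divisor K F} {f g : F}
    (hf : f ∈ riemannRochSpace E) (hg : g ∈ riemannRochSpace E') :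
    f * g ∈ riemannRochSpace (E + E') := by
  rcases eq_or_ne f 0 with rfl | hf0
  · simp
  rcases eq_or_ne g 0 with rfl | hg0
  · simp
  rw [mem_riemannRochSpace_iff] at hf hg ⊢
  intro v
  right
  rw [v.ord_mul hf0 hg0, Finsupp.add_apply]
  have h1 := (hf v).resolve_left hf0
  have h2 := (hg v).resolve_left hg0
  linarith

theorem inv_mem_riemannRochSpace_divOf {f : F} (hf : f ≠ 0) :
    f⁻¹ ∈ riemannRochSpace (divOf (K := K) f) := by
  rw [mem_riemannRochSpace_iff]
  intro v
  right
  rw [v.ord_inv, divOf_apply hf]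

/-- `L(E)` for a principal divisor `E = div f` is spanned by `f⁻¹` when `L(0)` = constants -/
theorem mem_riemannRochSpace_neg_divOf_iff {f g : F} (hf : f ≠ 0) :
    g ∈ riemannRochSpace (-divOf (K := K) f) ↔ g * f⁻¹ ∈ riemannRochSpace (0 : Divisor K F) := by
  rcases eq_or_ne g 0 with rfl | hg
  · simp
  rw [mem_riemannRochSpace_iff, mem_riemannRochSpace_iff]
  refine forall_congr' fun v => ?_
  have hgf : g * f⁻¹ ≠ 0 := mul_ne_zero hg (inv_ne_zero hf)
  simp only [hg, hgf, false_or, Finsupp.neg_apply, Finsupp.zero_apply, neg_neg, neg_zero]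
  rw [v.ord_mul hg (inv_ne_zero hf), v.ord_inv, divOf_apply hf]
  constructor <;> intro h <;> linarith

end Fermat.Agent.S18lib
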