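/-
S18lib / Setup / DatumDiv  (helper2)

`RedDatum` and divisors: `r_* div f = div (red f)`, reduction maps `L(E) ∩ O` into `L_k(r_* E)`.
-/
import Fermat.Agent.S18lib.Setup.DatumLemmas
import Fermat.Agent.S18lib.Setup.DivLemmas

set_option autoImplicit false

noncomputable section

namespace Fermat.Agent.S18lib

open AlgebraicCurve

/-- nonzero constants have order `0` at every place -/
theorem ord_algebraMap_eq_zero {K F : Type*} [Field K] [Field F] [Algebra K F] (v : Place K F)
    {c : K} (hc : c ≠ 0) : v.ord (algebraMap K F c) = 0 := by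
  have h1 : algebraMap K F c ∈ v.toValuationSubring := v.algebraMap_mem' c
  have h2 : algebraMap K F c⁻¹ ∈ v.toValuationSubring := v.algebraMap_mem' c⁻¹
  have hmul : (⟨algebraMap K F c, h1⟩ : v.toValuationSubring) * ⟨algebraMap K F c⁻¹, h2⟩ = 1 := by
    ext
    simp only [MulMemClass.mk_mul_mk, OneMemClass.coe_one]
    rw [← map_mul, mul_inv_cancel₀ hc, map_one]
  have hu : IsUnit (⟨algebraMap K F c, h1⟩ : v.toValuationSubring) := IsUnit.of_mul_eq_one _ hmul
  have := v.ord_coe_unit hu.unit
  simpa using this

theorem divOf_algebraMap_mul {K F : Type*} [Field K] [Field F] [Algebra K F]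
    [HasPrincipalDivisors K F] {c : K} (hc : c ≠ 0) (f : F) :
    divOf (K := K) (algebraMap K F c * f) = divOf (K := K) f := by
  rcases eq_or_ne f 0 with rfl | hf
  · simp
  ext v
  rw [divOf_apply', divOf_apply', v.ord_mul ((map_ne_zero _).2 hc) hf, ord_algebraMap_eq_zero v hc,
    zero_add]

namespace RedDatum

variable {L : Type*} [Field L] {A : ValuationSubring L}
variable {F : Type*} [Field F] [Algebra L F]
variable {Fk : Type*} [Field Fk] [Algebra (IsLocalRing.ResidueField A) Fk]
variable (D : RedDatum A F Fk)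
variable [HasPrincipalDivisors L F] [HasPrincipalDivisors (IsLocalRing.ResidueField A) Fk]

local notation "k" => IsLocalRing.ResidueField A

/-- `r_* div y = div (red y)` for `y` with nonzero reduction -/
theorem mapDomain_divOf {y : F} (h : D.redF y ≠ 0) :
    Finsupp.mapDomain D.r (divOf (K := L) y) = divOf (K := k) (D.redF y) := by
  have hy : y ∈ D.O := D.mem_of_redF_ne_zero h
  have hy0 : y ≠ 0 := by
    rintro rfl
    exact h D.redF_zero
  ext Q
  rw [divOf_apply h]
  have h' : D.red ⟨y, hy⟩ ≠ 0 := by rwa [D.redF_of_mem hy] at h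
  have := D.mapDomain_div ⟨y, hy⟩ h' (divOf (K := L) y) (fun P => divOf_apply hy0 P) Q
  rw [this, D.redF_of_mem hy]

/-- for every nonzero `f` there is a constant `c` with `r_* div f = div (red (c f))` -/
theorem exists_mapDomain_divOf {f : F} (hf : f ≠ 0) :
    ∃ c : L, c ≠ 0 ∧ D.redF (algebraMap L F c * f) ≠ 0 ∧
      Finsupp.mapDomain D.r (divOf (K := L) f) = divOf (K := k) (D.redF (algebraMap L F c * f)) := by
  obtain ⟨c, hc, hne⟩ := D.exists_const_mul_redF_ne_zero hf
  refine ⟨c, hc, hne, ?_⟩
  rw [← D.mapDomain_divOf hne, divOf_algebraMap_mul hc]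

/-- `r_*` maps principal divisors to principal divisors -/
theorem mapDomain_mem_principal {E : Divisor L F}
    (hE : E ∈ Divisor.principal (K := L) (F := F)) :
    Finsupp.mapDomain D.r E ∈ Divisor.principal (K := k) (F := Fk) := by
  obtain ⟨f, hf, rfl⟩ := mem_principal_iff.1 hE
  obtain ⟨c, -, hne, h⟩ := D.exists_mapDomain_divOf hf
  rw [h]
  exact divOf_mem_principal hne

omit [HasPrincipalDivisors L F] [HasPrincipalDivisors (IsLocalRing.ResidueField A) Fk] in
/-- `r_*` preserves degrees -/
theorem degree_mapDomain (E : Divisor L F) :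
    Divisor.degree (Finsupp.mapDomain D.r E) = Divisor.degree E := by
  induction E using Finsupp.induction with
  | zero => simp
  | single_add P n E _ _ ih =>
    rw [Finsupp.mapDomain_add, map_add, map_add, ih, Finsupp.mapDomain_single,
      Divisor.degree_single, Divisor.degree_single, D.deg_r]

/-- reduction maps `L(E) ∩ O` into `L_k(r_* E)` -/
theorem redF_mem_riemannRochSpace {E : Divisor L F} {y : F}
    (hy : y ∈ riemannRochSpace E) (hyO : y ∈ D.O) :
    D.redF y ∈ riemannRochSpace (Finsupp.mapDomain D.r E) := by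
  by_cases h : D.redF y = 0
  · rw [h]; exact Submodule.zero_mem _
  rw [mem_riemannRochSpace_iff_divOf]
  right
  have hy0 : y ≠ 0 := by
    rintro rfl
    exact h D.redF_zero
  have h1 : 0 ≤ divOf (K := L) y + E := (mem_riemannRochSpace_iff_divOf.1 hy).resolve_left hy0
  have h2 := Finsupp.mapDomain_nonneg (f := D.r) h1
  rwa [Finsupp.mapDomain_add, D.mapDomain_divOf h] at h2

end RedDatum

end Fermat.Agent.S18lib
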