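/-
S18lib / Setup / DatumFibre  (helper2)   -- package (G-e)

Fibres of a degree-preserving function under the place reduction map `r`:
no zero/pole cancellation, `r_* (y)_∞ = (ȳ)_∞`, `r_* (y - c₀)_0 = (ȳ - c̄₀)_0`,
`r` maps fibres onto fibres, and the pointwise sum formula `e_Q = Σ_{P → Q, y(P) = c₀} e_P`.
-/
import Fermat.Agent.S18lib.Setup.DatumDiv
import Fermat.Agent.ProgramR.FunctionField.PlaceDedekind

set_option autoImplicit false

noncomputable section

namespace Fermat.Agent.S18lib

open AlgebraicCurve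

/-! ### zeros and poles divisors -/

section ZerosPoles

variable {K F : Type*} [Field K] [Field F] [Algebra K F] [HasPrincipalDivisors K F]

/-- the divisor of zeros of `f` -/
def zerosOf (f : F) : Divisor K F :=
  (divOf (K := K) f).mapRange (fun n : ℤ => max n 0) (by simp)

/-- the divisor of poles of `f` -/
def polesOf (f : F) : Divisor K F :=
  (divOf (K := K) f).mapRange (fun n : ℤ => max (-n) 0) (by simp)

theorem zerosOf_apply (f : F) (P : Place K F) : zerosOf (K := K) f P = max (P.ord f) 0 := by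
  rw [zerosOf, Finsupp.mapRange_apply, divOf_apply']

theorem polesOf_apply (f : F) (P : Place K F) : polesOf (K := K) f P = max (-P.ord f) 0 := by
  rw [polesOf, Finsupp.mapRange_apply, divOf_apply']

theorem zerosOf_nonneg (f : F) : 0 ≤ zerosOf (K := K) f := by
  rw [Finsupp.le_def]; intro P; rw [zerosOf_apply]; exact le_max_right _ _

theorem polesOf_nonneg (f : F) : 0 ≤ polesOf (K := K) f := by
  rw [Finsupp.le_def]; intro P; rw [polesOf_apply]; exact le_max_right _ _

theorem zerosOf_sub_polesOf (f : F) : zerosOf (K := K) f - polesOf (K := K) f = divOf (K := K) f := by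
  ext P
  rw [Finsupp.sub_apply, zerosOf_apply, polesOf_apply, divOf_apply']
  rcases le_total (P.ord f) 0 with h | h
  · rw [max_eq_right h, max_eq_left (by linarith)]; ring
  · rw [max_eq_left h, max_eq_right (by linarith)]; ring

theorem zerosOf_disjoint_polesOf (f : F) (P : Place K F) :
    zerosOf (K := K) f P = 0 ∨ polesOf (K := K) f P = 0 := by
  rw [zerosOf_apply, polesOf_apply]
  rcases le_total (P.ord f) 0 with h | h
  · left; exact max_eq_right h
  · right; exact max_eq_right (by linarith)

omit [HasPrincipalDivisors K F] in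
/-- `ord (f - c) = ord f` at a pole of `f` -/
theorem ord_sub_algebraMap_of_neg (P : Place K F) {f : F} (hf : P.ord f < 0) (c : K) :
    P.ord (f - algebraMap K F c) = P.ord f := by
  have hf0 : f ≠ 0 := by
    rintro rfl; simp at hf
  have hv : P.adicValuation (algebraMap K F c) < P.adicValuation f := by
    have h1 : ¬ P.adicValuation f ≤ 1 := P.not_adicValuation_le_one_iff.2 hf
    exact lt_of_le_of_lt (P.adicValuation_algebraMap_le_one c) (not_le.1 h1)
  have := Valuation.map_sub_eq_of_lt_left (v := P.adicValuation) hv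
  unfold Place.ord
  rw [this]

theorem polesOf_sub_algebraMap (f : F) (c : K) :
    polesOf (K := K) (f - algebraMap K F c) = polesOf (K := K) f := by
  ext P
  rw [polesOf_apply, polesOf_apply]
  by_cases hf : P.ord f < 0
  · rw [ord_sub_algebraMap_of_neg P hf]
  · push Not at hf
    -- both are regular at `P`
    have h1 : f ∈ P.toValuationSubring := (Fermat.Agent.ProgramR.FF.mem_iff_ord_nonneg P f).2 hf
    have h2 : f - algebraMap K F c ∈ P.toValuationSubring :=
      sub_mem h1 (P.algebraMap_mem' c)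
    have h3 := (Fermat.Agent.ProgramR.FF.mem_iff_ord_nonneg P _).1 h2
    rw [max_eq_right (by linarith), max_eq_right (by linarith)]

end ZerosPoles

/-! ### two elementary lemmas on divisors -/

section Elementary

/-- if `Z - P = Z' - P'` with all four effective and `Z'`, `P'` of disjoint support,
then `Z' ≤ Z` and `P' ≤ P` -/
theorem le_of_sub_eq_sub {ι : Type*} {Z P Z' P' : ι →₀ ℤ} (hZ : 0 ≤ Z) (hP : 0 ≤ P)
    (hdisj : ∀ i, Z' i = 0 ∨ P' i = 0) (h : Z - P = Z' - P') : Z' ≤ Z ∧ P' ≤ P := by
  have hpt : ∀ i, Z i - P i = Z' i - P' i := fun i => by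
    have := congrArg (fun f : ι →₀ ℤ => f i) h
    simpa using this
  have hZi : ∀ i, 0 ≤ Z i := fun i => Finsupp.le_def.1 hZ i
  have hPi : ∀ i, 0 ≤ P i := fun i => Finsupp.le_def.1 hP i
  constructor
  · rw [Finsupp.le_def]; intro i
    rcases hdisj i with h0 | h0
    · rw [h0]; exact hZi i
    · have := hpt i; rw [h0] at this; have := hPi i; linarith
  · rw [Finsupp.le_def]; intro i
    rcases hdisj i with h0 | h0
    · have := hpt i; rw [h0] at this; have := hZi i; linarith
    · rw [h0]; exact hPi i

variable {K F : Type*} [Field K] [Field F] [Algebra K F]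

/-- an effective divisor of degree `0` is `0` (all places of positive degree) -/
theorem eq_zero_of_nonneg_of_degree_eq_zero (hdeg : ∀ P : Place K F, 0 < P.deg)
    {E : Divisor K F} (hE : 0 ≤ E) (h0 : Divisor.degree E = 0) : E = 0 := by
  classical
  have hEi : ∀ P, 0 ≤ E P := fun P => Finsupp.le_def.1 hE P
  have hsum : Divisor.degree E = ∑ P ∈ E.support, E P * (P.deg : ℤ) := by
    simp [Divisor.degree, Finsupp.liftAddHom_apply, Finsupp.sum]
  rw [hsum] at h0
  have hterm : ∀ P ∈ E.support, E P * (P.deg : ℤ) = 0 := by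
    have hnn : ∀ P ∈ E.support, 0 ≤ E P * (P.deg : ℤ) := fun P _ =>
      mul_nonneg (hEi P) (by exact_mod_cast (hdeg P).le)
    exact (Finset.sum_eq_zero_iff_of_nonneg hnn).1 h0
  ext P
  rw [Finsupp.zero_apply]
  by_contra hne
  have hmem : P ∈ E.support := Finsupp.mem_support_iff.2 hne
  have := hterm P hmem
  rcases mul_eq_zero.1 this with h1 | h1
  · exact hne h1
  · have := hdeg P
    have h2 : (P.deg : ℤ) ≠ 0 := by exact_mod_cast this.ne'
    exact h2 h1

open scoped Classical in
/-- evaluation of a push-forward divisor -/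
theorem mapDomain_apply_eq_sum {ι κ : Type*} (r : ι → κ) (E : ι →₀ ℤ) (Q : κ) :
    Finsupp.mapDomain r E Q = ∑ P ∈ E.support, (if r P = Q then E P else 0) := by
  rw [Finsupp.mapDomain, Finsupp.sum_apply, Finsupp.sum]
  refine Finset.sum_congr rfl fun P _ => ?_
  rw [Finsupp.single_apply]

/-- a term of an effective divisor is bounded by the push-forward -/
theorem le_mapDomain_apply {ι κ : Type*} (r : ι → κ) {E : ι →₀ ℤ} (hE : 0 ≤ E) (P : ι) :
    E P ≤ Finsupp.mapDomain r E (r P) := by
  classical
  rw [mapDomain_apply_eq_sum]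
  by_cases hP : P ∈ E.support
  · have hnn : ∀ P' ∈ E.support, 0 ≤ (if r P' = r P then E P' else 0) := fun P' _ => by
      split_ifs
      · exact Finsupp.le_def.1 hE P'
      · exact le_rfl
    have := Finset.single_le_sum hnn hP
    simpa using this
  · rw [Finsupp.notMem_support_iff.1 hP]
    exact Finset.sum_nonneg fun P' _ => by
      split_ifs
      · exact Finsupp.le_def.1 hE P'
      · exact le_rfl

/-- a positive value of the push-forward comes from a point of the support -/
theorem exists_of_mapDomain_apply_pos {ι κ : Type*} (r : ι → κ) {E : ι →₀ ℤ} {Q : κ}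
    (h : 0 < Finsupp.mapDomain r E Q) : ∃ P, r P = Q ∧ E P ≠ 0 := by
  classical
  rw [mapDomain_apply_eq_sum] at h
  by_contra hno
  push Not at hno
  have : ∑ P ∈ E.support, (if r P = Q then E P else 0) = 0 := by
    refine Finset.sum_eq_zero fun P _ => ?_
    split_ifs with hr
    · exact hno P hr
    · rfl
  rw [this] at h
  exact lt_irrefl _ h

end Elementary

/-! ### fibres under the place reduction -/

namespace RedDatum

variable {L : Type*} [Field L] {A : ValuationSubring L}
variable {F : Type*} [Field F] [Algebra L F]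
variable {Fk : Type*} [Field Fk] [Algebra (IsLocalRing.ResidueField A) Fk]
variable (D : RedDatum A F Fk)
variable [HasPrincipalDivisors L F] [HasPrincipalDivisors (IsLocalRing.ResidueField A) Fk]

local notation "k" => IsLocalRing.ResidueField A

/-- **No cancellation.**  If `y` has nonzero reduction and the degree of the pole divisor is
preserved, then `r_* (y)_∞ = (ȳ)_∞` and `r_* (y)_0 = (ȳ)_0`. -/
theorem mapDomain_polesOf_zerosOf (hdegpos : ∀ Q : Place k Fk, 0 < Q.deg) {y : F}
    (hy : D.redF y ≠ 0)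
    (hdeg : Divisor.degree (polesOf (K := L) y) = Divisor.degree (polesOf (K := k) (D.redF y))) :
    Finsupp.mapDomain D.r (polesOf (K := L) y) = polesOf (K := k) (D.redF y) ∧
      Finsupp.mapDomain D.r (zerosOf (K := L) y) = zerosOf (K := k) (D.redF y) := by
  have h1 : Finsupp.mapDomain D.r (zerosOf (K := L) y) - Finsupp.mapDomain D.r (polesOf (K := L) y)
      = zerosOf (K := k) (D.redF y) - polesOf (K := k) (D.redF y) := by
    rw [← Finsupp.mapDomain_sub, zerosOf_sub_polesOf, zerosOf_sub_polesOf, D.mapDomain_divOf hy]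
  obtain ⟨hZ, hP⟩ := le_of_sub_eq_sub (Finsupp.mapDomain_nonneg (zerosOf_nonneg y))
    (Finsupp.mapDomain_nonneg (polesOf_nonneg y)) (zerosOf_disjoint_polesOf (D.redF y)) h1
  have hPeq : Finsupp.mapDomain D.r (polesOf (K := L) y) = polesOf (K := k) (D.redF y) := by
    have hnn : 0 ≤ Finsupp.mapDomain D.r (polesOf (K := L) y) - polesOf (K := k) (D.redF y) :=
      sub_nonneg.2 hP
    have hd0 : Divisor.degree
        (Finsupp.mapDomain D.r (polesOf (K := L) y) - polesOf (K := k) (D.redF y)) = 0 := by
      rw [map_sub, D.degree_mapDomain, hdeg, sub_self]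
    exact sub_eq_zero.1 (eq_zero_of_nonneg_of_degree_eq_zero hdegpos hnn hd0)
  refine ⟨hPeq, ?_⟩
  rw [hPeq] at h1
  exact sub_left_injective h1

/-- the same for the fibre over an integral constant `c₀ ∈ A` -/
theorem mapDomain_zerosOf_sub (hdegpos : ∀ Q : Place k Fk, 0 < Q.deg) {y : F}
    (hyO : y ∈ D.O) (hnc : ∀ c : k, D.redF y ≠ algebraMap k Fk c)
    (hdeg : Divisor.degree (polesOf (K := L) y) = Divisor.degree (polesOf (K := k) (D.redF y)))
    (c₀ : A) :
    Finsupp.mapDomain D.r (zerosOf (K := L) (y - algebraMap L F (c₀ : L)))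
      = zerosOf (K := k) (D.redF y - algebraMap k Fk (IsLocalRing.residue A c₀)) := by
  have hred : D.redF (y - algebraMap L F (c₀ : L))
      = D.redF y - algebraMap k Fk (IsLocalRing.residue A c₀) := by
    rw [D.redF_sub hyO (D.algebraMap_mem c₀), D.redF_algebraMap]
  have hne : D.redF (y - algebraMap L F (c₀ : L)) ≠ 0 := by
    rw [hred, sub_ne_zero]; exact hnc _
  have hdeg' : Divisor.degree (polesOf (K := L) (y - algebraMap L F (c₀ : L)))
      = Divisor.degree (polesOf (K := k) (D.redF (y - algebraMap L F (c₀ : L)))) := by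
    rw [hred, polesOf_sub_algebraMap, polesOf_sub_algebraMap, hdeg]
  have := (D.mapDomain_polesOf_zerosOf hdegpos hne hdeg').2
  rwa [hred] at this

/-- pole divisor version, with the non-constancy hypothesis packaged the same way -/
theorem mapDomain_polesOf (hdegpos : ∀ Q : Place k Fk, 0 < Q.deg) {y : F}
    (hy : D.redF y ≠ 0)
    (hdeg : Divisor.degree (polesOf (K := L) y) = Divisor.degree (polesOf (K := k) (D.redF y))) :
    Finsupp.mapDomain D.r (polesOf (K := L) y) = polesOf (K := k) (D.redF y) :=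
  (D.mapDomain_polesOf_zerosOf hdegpos hy hdeg).1

open scoped Classical in
/-- **sum formula** `e_Q = Σ_{P → Q, y(P) = c₀} e_P` in `ord`-language -/
theorem ord_sub_eq_sum (hdegpos : ∀ Q : Place k Fk, 0 < Q.deg) {y : F}
    (hyO : y ∈ D.O) (hnc : ∀ c : k, D.redF y ≠ algebraMap k Fk c)
    (hdeg : Divisor.degree (polesOf (K := L) y) = Divisor.degree (polesOf (K := k) (D.redF y)))
    (c₀ : A) (Q : Place k Fk) :
    max (Q.ord (D.redF y - algebraMap k Fk (IsLocalRing.residue A c₀))) 0
      = ∑ P ∈ (zerosOf (K := L) (y - algebraMap L F (c₀ : L))).support,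
          (if D.r P = Q then max (P.ord (y - algebraMap L F (c₀ : L))) 0 else 0) := by
  rw [← zerosOf_apply, ← D.mapDomain_zerosOf_sub hdegpos hyO hnc hdeg c₀, mapDomain_apply_eq_sum]
  refine Finset.sum_congr rfl fun P _ => ?_
  rw [zerosOf_apply]

/-- `r` maps the fibre over `c₀` into the fibre over `c̄₀` … -/
theorem ord_r_pos_of_ord_pos (hdegpos : ∀ Q : Place k Fk, 0 < Q.deg) {y : F}
    (hyO : y ∈ D.O) (hnc : ∀ c : k, D.redF y ≠ algebraMap k Fk c)
    (hdeg : Divisor.degree (polesOf (K := L) y) = Divisor.degree (polesOf (K := k) (D.redF y)))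
    (c₀ : A) {P : Place L F} (hP : 0 < P.ord (y - algebraMap L F (c₀ : L))) :
    0 < (D.r P).ord (D.redF y - algebraMap k Fk (IsLocalRing.residue A c₀)) := by
  have h1 := le_mapDomain_apply D.r (zerosOf_nonneg (K := L) (y - algebraMap L F (c₀ : L))) P
  rw [D.mapDomain_zerosOf_sub hdegpos hyO hnc hdeg c₀, zerosOf_apply, zerosOf_apply,
    max_eq_left hP.le] at h1
  by_contra hle
  push Not at hle
  rw [max_eq_right hle] at h1
  linarith

/-- … and onto it. -/
theorem exists_ord_pos_of_ord_pos (hdegpos : ∀ Q : Place k Fk, 0 < Q.deg) {y : F}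
    (hyO : y ∈ D.O) (hnc : ∀ c : k, D.redF y ≠ algebraMap k Fk c)
    (hdeg : Divisor.degree (polesOf (K := L) y) = Divisor.degree (polesOf (K := k) (D.redF y)))
    (c₀ : A) {Q : Place k Fk}
    (hQ : 0 < Q.ord (D.redF y - algebraMap k Fk (IsLocalRing.residue A c₀))) :
    ∃ P : Place L F, D.r P = Q ∧ 0 < P.ord (y - algebraMap L F (c₀ : L)) := by
  have h1 : 0 < Finsupp.mapDomain D.r (zerosOf (K := L) (y - algebraMap L F (c₀ : L))) Q := by
    rw [D.mapDomain_zerosOf_sub hdegpos hyO hnc hdeg c₀, zerosOf_apply, max_eq_left hQ.le]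
    exact hQ
  obtain ⟨P, hPQ, hne⟩ := exists_of_mapDomain_apply_pos D.r h1
  refine ⟨P, hPQ, ?_⟩
  rw [zerosOf_apply] at hne
  by_contra hle
  push Not at hle
  exact hne (max_eq_right hle)

/-- poles go to poles … -/
theorem ord_r_neg_of_ord_neg (hdegpos : ∀ Q : Place k Fk, 0 < Q.deg) {y : F}
    (hy : D.redF y ≠ 0)
    (hdeg : Divisor.degree (polesOf (K := L) y) = Divisor.degree (polesOf (K := k) (D.redF y)))
    {P : Place L F} (hP : P.ord y < 0) : (D.r P).ord (D.redF y) < 0 := by
  have h1 := le_mapDomain_apply D.r (polesOf_nonneg (K := L) y) P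
  rw [D.mapDomain_polesOf hdegpos hy hdeg, polesOf_apply, polesOf_apply,
    max_eq_left (by linarith)] at h1
  by_contra hle
  push Not at hle
  rw [max_eq_right (by linarith)] at h1
  linarith

/-- … and every pole of `ȳ` is the image of a pole of `y`. -/
theorem exists_ord_neg_of_ord_neg (hdegpos : ∀ Q : Place k Fk, 0 < Q.deg) {y : F}
    (hy : D.redF y ≠ 0)
    (hdeg : Divisor.degree (polesOf (K := L) y) = Divisor.degree (polesOf (K := k) (D.redF y)))
    {Q : Place k Fk} (hQ : Q.ord (D.redF y) < 0) :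
    ∃ P : Place L F, D.r P = Q ∧ P.ord y < 0 := by
  have h1 : 0 < Finsupp.mapDomain D.r (polesOf (K := L) y) Q := by
    rw [D.mapDomain_polesOf hdegpos hy hdeg, polesOf_apply, max_eq_left (by linarith)]
    linarith
  obtain ⟨P, hPQ, hne⟩ := exists_of_mapDomain_apply_pos D.r h1
  refine ⟨P, hPQ, ?_⟩
  rw [polesOf_apply] at hne
  by_contra hle
  push Not at hle
  exact hne (max_eq_right (by linarith))

open scoped Classical in
/-- pole orders add up: `-ord_Q ȳ = Σ_{P → Q} (-ord_P y)` over the poles -/
theorem neg_ord_eq_sum (hdegpos : ∀ Q : Place k Fk, 0 < Q.deg) {y : F}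
    (hy : D.redF y ≠ 0)
    (hdeg : Divisor.degree (polesOf (K := L) y) = Divisor.degree (polesOf (K := k) (D.redF y)))
    (Q : Place k Fk) :
    max (-Q.ord (D.redF y)) 0
      = ∑ P ∈ (polesOf (K := L) y).support, (if D.r P = Q then max (-P.ord y) 0 else 0) := by
  rw [← polesOf_apply, ← D.mapDomain_polesOf hdegpos hy hdeg, mapDomain_apply_eq_sum]
  refine Finset.sum_congr rfl fun P _ => ?_
  rw [polesOf_apply]

end RedDatum

end Fermat.Agent.S18lib
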