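/-
S18lib / Setup / Modular  (helper2, interface co-architect)

Abbreviations for the two modular function fields and shortcut instances (the default instance
search for `Algebra (ResidueField A) ↥(modularFunctionFieldFullC (ResidueField A) N)` times out
at the default `synthInstance.maxHeartbeats`; the Prelude raises it to 400000 in the same place).
-/
import Fermat.Agent.S18lib.Setup.Datum
import Fermat.Agent.S18lib.Setup.CurveRR
import Fermat.Prelude.Def_ModularCurve_ReductionModL
import Fermat.Prelude.Def_FLTPrelim_Ramification

set_option autoImplicit false

noncomputable section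

namespace Fermat.Agent.S18lib

open AlgebraicCurve ModularCurve

/-- the residue field of `A` -/
abbrev kRes (A : ValuationSubring (AlgebraicClosure ℚ)) : Type := IsLocalRing.ResidueField A

/-- characteristic-0 function field `Q̄(X₀(N)) = Q̄(j(q^d) : d ∣ N) ⊆ Q̄((q))` -/
abbrev FBar (N : ℕ) : Type := ↥(modularFunctionFieldBar N)

/-- characteristic-`ℓ` function field `k(j̄(q^d) : d ∣ N) ⊆ k((q))`, `k` the residue field of `A` -/
abbrev FRes (A : ValuationSubring (AlgebraicClosure ℚ)) (N : ℕ) : Type :=
  ↥(modularFunctionFieldFullC (IsLocalRing.ResidueField A) N)

variable (N : ℕ) (A : ValuationSubring (AlgebraicClosure ℚ))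

set_option synthInstance.maxHeartbeats 400000 in
instance instFieldFRes : Field (FRes A N) := inferInstance

set_option synthInstance.maxHeartbeats 400000 in
instance instAlgebraFRes : Algebra (IsLocalRing.ResidueField A) (FRes A N) := inferInstance

set_option synthInstance.maxHeartbeats 400000 in
instance instAlgebraFResLaurent :
    Algebra (FRes A N) (LaurentSeries (IsLocalRing.ResidueField A)) := inferInstance

instance instFieldFBar : Field (FBar N) := inferInstance

instance instAlgebraFBar : Algebra (AlgebraicClosure ℚ) (FBar N) := inferInstance

/-- the type of reduction data for level `N` at `A` -/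
abbrev ModDatum : Type := RedDatum A (FBar N) (FRes A N)

end Fermat.Agent.S18lib
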